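import Fermat.Agent.H29.ES1.GenInterfaces

/-!
# P-ES1, row ES1-GEN-b2: `LatSumQExpStatement`

The `q`-expansion of the column sums of the weight-4 lattice sums:
`(6/(2π)⁴) ∑_{c ≡ a (M)} ∑_{e ∈ ℤ} (c z + e)⁻⁴ = ∑_n genCoeff M a n qⁿ` for `a ≠ 0`.
-/

set_option autoImplicit false

open Complex
open scoped UpperHalfPlane

namespace Fermat.Agent.H87.ES1

open Fermat.Agent.H29.ES1

/-! ### The double series -/

/-- The double series `∑_{m, n ≥ 1, P m} n³ q^{mn}` rearranged as a power series. -/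
theorem hasSum_pnat_filtered_divisor_sum (P : ℕ → Prop) [DecidablePred P] {q : ℂ}
    (hq : ‖q‖ < 1) :
    HasSum (fun N : ℕ+ => (∑ d ∈ (N : ℕ).divisors, if P ((N : ℕ) / d) then (d : ℂ) ^ 3 else 0)
        * q ^ (N : ℕ))
      (∑' m : ℕ+, if P m then ∑' n : ℕ+, ((n : ℕ) : ℂ) ^ 3 * q ^ ((m : ℕ) * (n : ℕ)) else 0) := by
  classical
  set F : ℕ+ × ℕ+ → ℂ := fun c =>
    if P c.1 then ((c.2 : ℕ) : ℂ) ^ 3 * q ^ ((c.1 : ℕ) * (c.2 : ℕ)) else 0 with hF_def
  have hbase : Summable fun c : ℕ+ × ℕ+ => ((c.2 : ℕ) : ℂ) ^ 3 * q ^ ((c.1 : ℕ) * (c.2 : ℕ)) := by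
    have := summable_prod_mul_pow (𝕜 := ℂ) 3 hq
    exact this
  have hF : Summable F := by
    refine Summable.of_norm_bounded hbase.norm fun c => ?_
    simp only [hF_def]
    split_ifs
    · exact le_rfl
    · simp
  -- first evaluation
  have h1 : ∑' c, F c =
      ∑' m : ℕ+, if P m then ∑' n : ℕ+, ((n : ℕ) : ℂ) ^ 3 * q ^ ((m : ℕ) * (n : ℕ)) else 0 := by
    rw [hF.tsum_prod]
    refine tsum_congr fun m => ?_
    by_cases hm : P m
    · simp [hF_def, hm]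
    · simp [hF_def, hm]
  -- second evaluation
  have hG : Summable fun x : (Σ N : ℕ+, Nat.divisorsAntidiagonal (N : ℕ)) =>
      F (sigmaAntidiagonalEquivProd x) := sigmaAntidiagonalEquivProd.summable_iff.mpr hF
  have h2 : ∀ N : ℕ+, ∑' y : Nat.divisorsAntidiagonal (N : ℕ),
      F (sigmaAntidiagonalEquivProd ⟨N, y⟩) =
      (∑ d ∈ (N : ℕ).divisors, if P ((N : ℕ) / d) then (d : ℂ) ^ 3 else 0) * q ^ (N : ℕ) := by
    intro N
    rw [tsum_fintype, Finset.univ_eq_attach]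
    have e1 : ∀ y : Nat.divisorsAntidiagonal (N : ℕ), F (sigmaAntidiagonalEquivProd ⟨N, y⟩) =
        (fun x : ℕ × ℕ => (if P x.1 then ((x.2 : ℕ) : ℂ) ^ 3 else 0) * q ^ (N : ℕ)) y.1 := by
      intro y
      have hy := (Nat.mem_divisorsAntidiagonal.mp y.2).1
      show (if P y.1.1 then ((y.1.2 : ℕ) : ℂ) ^ 3 * q ^ (y.1.1 * y.1.2) else 0) =
        (if P y.1.1 then ((y.1.2 : ℕ) : ℂ) ^ 3 else 0) * q ^ (N : ℕ)
      rw [hy]
      split_ifs <;> simp
    rw [Finset.sum_congr rfl fun y _ => e1 y,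
      (N : ℕ).divisorsAntidiagonal.sum_attach
        (fun x : ℕ × ℕ => (if P x.1 then ((x.2 : ℕ) : ℂ) ^ 3 else 0) * q ^ (N : ℕ)),
      Nat.sum_divisorsAntidiagonal'
        (fun x y : ℕ => (if P x then ((y : ℕ) : ℂ) ^ 3 else 0) * q ^ (N : ℕ)),
      Finset.sum_mul]
  have h3 := hG.hasSum.sigma (fun N => (hG.sigma_factor N).hasSum)
  rw [sigmaAntidiagonalEquivProd.tsum_eq F, h1] at h3
  have h4 : (fun N : ℕ+ => ∑' y : Nat.divisorsAntidiagonal (N : ℕ),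
      F (sigmaAntidiagonalEquivProd ⟨N, y⟩)) = fun N : ℕ+ =>
      (∑ d ∈ (N : ℕ).divisors, if P ((N : ℕ) / d) then (d : ℂ) ^ 3 else 0) * q ^ (N : ℕ) :=
    funext h2
  rw [h4] at h3
  exact h3

/-! ### The inner sums -/

/-- `∑_{e ∈ ℤ} (m z + e)⁻⁴ = ((2π)⁴/6) ∑_{n ≥ 1} n³ q^{mn}` for `m ≥ 1`. -/
theorem tsum_inv_pow_four_pos (z : ℍ) (m : ℕ+) :
    ∑' e : ℤ, ((((m : ℕ) : ℤ) : ℂ) * (z : ℂ) + (e : ℂ))⁻¹ ^ 4 =
      (2 * (Real.pi : ℂ)) ^ 4 / 6 *
        ∑' n : ℕ+, ((n : ℕ) : ℂ) ^ 3 * cexp (2 * Real.pi * Complex.I * z) ^ ((m : ℕ) * (n : ℕ)) := by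
  have hw : 0 < (((m : ℕ) : ℂ) * (z : ℂ)).im := by
    simpa using z.2
  have H := EisensteinSeries.qExpansion_identity_pnat (k := 3) (by norm_num)
    ⟨((m : ℕ) : ℂ) * (z : ℂ), hw⟩
  have hc : (-2 * (Real.pi : ℂ) * Complex.I) ^ (3 + 1) / ((Nat.factorial 3 : ℕ) : ℂ) =
      (2 * (Real.pi : ℂ)) ^ 4 / 6 := by
    have hI : Complex.I ^ 4 = 1 := by
      rw [show (4 : ℕ) = 2 * 2 by norm_num, pow_mul, I_sq]; norm_num
    have : (-2 * (Real.pi : ℂ) * Complex.I) ^ (3 + 1) = (2 * (Real.pi : ℂ)) ^ 4 * Complex.I ^ 4 := by ring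
    rw [this, hI, mul_one]
    norm_num [Nat.factorial]
  rw [hc] at H
  have hL : ∀ e : ℤ, ((((m : ℕ) : ℤ) : ℂ) * (z : ℂ) + (e : ℂ))⁻¹ ^ 4 =
      1 / (((⟨((m : ℕ) : ℂ) * (z : ℂ), hw⟩ : ℍ) : ℂ) + (e : ℂ)) ^ (3 + 1) := by
    intro e
    rw [one_div, inv_pow]
    simp
  have hR : ∀ n : ℕ+, ((n : ℕ) : ℂ) ^ 3 * cexp (2 * Real.pi * Complex.I * z) ^ ((m : ℕ) * (n : ℕ)) =
      ((n : ℕ) : ℂ) ^ 3 *
        cexp (2 * Real.pi * Complex.I * ((⟨((m : ℕ) : ℂ) * (z : ℂ), hw⟩ : ℍ) : ℂ)) ^ (n : ℕ) := by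
    intro n
    congr 1
    rw [pow_mul, ← Complex.exp_nat_mul _ (m : ℕ)]
    congr 2
    show ((m : ℕ) : ℂ) * (2 * Real.pi * Complex.I * z) = 2 * Real.pi * Complex.I * (((m : ℕ) : ℂ) * (z : ℂ))
    ring
  rw [tsum_congr hL, tsum_congr hR]
  exact H

/-- `∑_{e ∈ ℤ} (-m z + e)⁻⁴ = ((2π)⁴/6) ∑_{n ≥ 1} n³ q^{mn}` for `m ≥ 1`. -/
theorem tsum_inv_pow_four_neg (z : ℍ) (m : ℕ+) :
    ∑' e : ℤ, (((-((m : ℕ) : ℤ) : ℤ) : ℂ) * (z : ℂ) + (e : ℂ))⁻¹ ^ 4 =
      (2 * (Real.pi : ℂ)) ^ 4 / 6 *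
        ∑' n : ℕ+, ((n : ℕ) : ℂ) ^ 3 * cexp (2 * Real.pi * Complex.I * z) ^ ((m : ℕ) * (n : ℕ)) := by
  rw [← tsum_inv_pow_four_pos z m, ← tsum_comp_neg]
  refine tsum_congr fun e => ?_
  rw [inv_pow, inv_pow]
  congr 1
  push_cast
  ring

/-! ### The column sums -/

/-- The summand of the lattice sums. -/
noncomputable def lsTerm (z : ℍ) (v : Fin 2 → ℤ) : ℂ :=
  (((v 0 : ℤ) : ℂ) * (z : ℂ) + ((v 1 : ℤ) : ℂ))⁻¹ ^ 4

theorem summable_lsTerm (z : ℍ) : Summable (lsTerm z) := by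
  refine (summable_eisSummand (k := 4) (by norm_num) z).congr fun v => ?_
  simp only [EisensteinSeries.eisSummand, lsTerm]
  rw [inv_pow]
  norm_cast

/-- The column sum as a single sum over the vectors with first coordinate `≡ a`. -/
theorem colSum_eq_tsum (M : ℕ) [NeZero M] (a : ZMod M) (ha : a ≠ 0) (z : ℍ) :
    colSum M a z =
      ∑' v : Fin 2 → ℤ, if ((v 0 : ℤ) : ZMod M) = a then lsTerm z v else 0 := by
  have h1 : ∀ b : ZMod M, latSum M ![a, b] z =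
      ∑' v : Fin 2 → ℤ, (latSet M ![a, b]).indicator (lsTerm z) v := by
    intro b
    rw [← tsum_subtype]
    rfl
  unfold colSum
  rw [Finset.sum_congr rfl fun b _ => h1 b,
    ← Summable.tsum_finsetSum fun b _ => (summable_lsTerm z).indicator _]
  refine tsum_congr fun v => ?_
  have hmem : ∀ b : ZMod M, v ∈ latSet M ![a, b] ↔
      (((v 0 : ℤ) : ZMod M) = a ∧ ((v 1 : ℤ) : ZMod M) = b) := by
    intro b
    constructor
    · rintro ⟨h, _⟩
      exact ⟨by simpa using congrFun h 0, by simpa using congrFun h 1⟩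
    · rintro ⟨h0, h1⟩
      refine ⟨?_, ?_⟩
      · funext i
        fin_cases i
        · simpa using h0
        · simpa using h1
      · intro hv
        apply ha
        rw [← h0, hv]
        simp
  by_cases hva : ((v 0 : ℤ) : ZMod M) = a
  · rw [if_pos hva]
    rw [Finset.sum_eq_single (((v 1 : ℤ) : ZMod M))]
    · rw [Set.indicator_of_mem ((hmem _).mpr ⟨hva, rfl⟩)]
    · intro b _ hb
      rw [Set.indicator_of_notMem]
      intro h
      exact hb ((hmem b).mp h).2.symm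
    · intro h
      exact absurd (Finset.mem_univ _) h
  · rw [if_neg hva]
    refine Finset.sum_eq_zero fun b _ => ?_
    rw [Set.indicator_of_notMem]
    intro h
    exact hva ((hmem b).mp h).1

/-- **ES1-GEN-b (2).** -/
theorem latSumQExp : LatSumQExpStatement := by
  intro M _ a ha z
  set q : ℂ := cexp (2 * Real.pi * Complex.I * z) with hq_def
  have hq : ‖q‖ < 1 := UpperHalfPlane.norm_exp_two_pi_I_lt_one z
  set K : ℂ := (2 * (Real.pi : ℂ)) ^ 4 / 6 with hK_def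
  have hK : K ≠ 0 := by
    rw [hK_def]
    have : (Real.pi : ℂ) ≠ 0 := by exact_mod_cast Real.pi_ne_zero
    exact div_ne_zero (pow_ne_zero _ (mul_ne_zero two_ne_zero this)) (by norm_num)
  set T : ℕ → ℂ := fun m => ∑' n : ℕ+, ((n : ℕ) : ℂ) ^ 3 * q ^ (m * (n : ℕ)) with hT_def
  -- the column sum as an iterated sum
  set g : ℤ × ℤ → ℂ := fun x =>
    if ((x.1 : ℤ) : ZMod M) = a then lsTerm z ![x.1, x.2] else 0 with hg_def
  have hg : Summable g := by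
    have h1 : Summable fun v : Fin 2 → ℤ =>
        if ((v 0 : ℤ) : ZMod M) = a then lsTerm z v else 0 := by
      have := (summable_lsTerm z).indicator {v : Fin 2 → ℤ | ((v 0 : ℤ) : ZMod M) = a}
      refine this.congr fun v => ?_
      simp only [Set.indicator_apply, Set.mem_ofPred_eq]
    refine ((finTwoArrowEquiv ℤ).symm.summable_iff.mpr h1).congr fun x => ?_
    rfl
  have hcol : colSum M a z = ∑' c : ℤ, ∑' e : ℤ, g (c, e) := by
    rw [colSum_eq_tsum M a ha z, ← hg.tsum_prod,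
      ← (finTwoArrowEquiv ℤ).symm.tsum_eq
        (fun v : Fin 2 → ℤ => if ((v 0 : ℤ) : ZMod M) = a then lsTerm z v else 0)]
    refine tsum_congr fun x => ?_
    rfl
  -- inner sums
  set h : ℤ → ℂ := fun c => ∑' e : ℤ, g (c, e) with hh_def
  have hhs : Summable h := hg.prod
  have h0 : h 0 = 0 := by
    have : ¬ ((0 : ZMod M) = a) := fun h' => ha h'.symm
    simp [hh_def, hg_def, this]
  have hpos : ∀ m : ℕ+, h ((m : ℕ) : ℤ) =
      if (((m : ℕ) : ℕ) : ZMod M) = a then K * T m else 0 := by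
    intro m
    by_cases hm : (((m : ℕ) : ℕ) : ZMod M) = a
    · have hm' : ((((m : ℕ) : ℤ) : ℤ) : ZMod M) = a := by simpa using hm
      rw [if_pos hm]
      simp only [hh_def, hg_def, if_pos hm']
      exact tsum_inv_pow_four_pos z m
    · have hm' : ¬ ((((m : ℕ) : ℤ) : ℤ) : ZMod M) = a := by simpa using hm
      rw [if_neg hm]
      simp only [hh_def, hg_def, if_neg hm']
      exact tsum_zero
  have hneg : ∀ m : ℕ+, h (-((m : ℕ) : ℤ)) =
      if (((m : ℕ) : ℕ) : ZMod M) = -a then K * T m else 0 := by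
    intro m
    have hiff : ((((-((m : ℕ) : ℤ)) : ℤ) : ZMod M) = a) ↔ ((((m : ℕ) : ℕ) : ZMod M) = -a) := by
      push_cast
      exact neg_eq_iff_eq_neg
    by_cases hm : (((m : ℕ) : ℕ) : ZMod M) = -a
    · rw [if_pos hm]
      simp only [hh_def, hg_def, if_pos (hiff.mpr hm)]
      exact tsum_inv_pow_four_neg z m
    · rw [if_neg hm]
      simp only [hh_def, hg_def, if_neg (fun h' => hm (hiff.mp h'))]
      exact tsum_zero
  -- the two power series
  have hA := hasSum_pnat_filtered_divisor_sum (fun c : ℕ => ((c : ℕ) : ZMod M) = a) hq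
  have hB := hasSum_pnat_filtered_divisor_sum (fun c : ℕ => ((c : ℕ) : ZMod M) = -a) hq
  have hAB := hA.add hB
  -- the value
  have hval : (6 : ℂ) / (2 * (Real.pi : ℂ)) ^ 4 * colSum M a z =
      (∑' m : ℕ+, if (((m : ℕ) : ℕ) : ZMod M) = a then T m else 0) +
        ∑' m : ℕ+, if (((m : ℕ) : ℕ) : ZMod M) = -a then T m else 0 := by
    have hKinv : (6 : ℂ) / (2 * (Real.pi : ℂ)) ^ 4 = K⁻¹ := by
      rw [hK_def, inv_div]
    rw [hKinv, hcol, tsum_int_eq_zero_add_tsum_pnat hhs, h0, zero_add,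
      tsum_congr hpos, tsum_congr hneg]
    have e1 : ∀ (b : ZMod M), (∑' m : ℕ+, if (((m : ℕ) : ℕ) : ZMod M) = b then K * T m else 0) =
        K * ∑' m : ℕ+, if (((m : ℕ) : ℕ) : ZMod M) = b then T m else 0 := by
      intro b
      rw [← tsum_mul_left]
      refine tsum_congr fun m => ?_
      split_ifs <;> simp
    rw [e1, e1, ← mul_add, ← mul_assoc, inv_mul_cancel₀ hK, one_mul]
  rw [hval]
  -- from `ℕ+` to `ℕ`
  have hfin : HasSum (fun N : ℕ+ => ((genCoeff M a (N : ℕ) : ℤ) : ℂ) *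
      cexp (2 * (Real.pi : ℂ) * Complex.I * ((N : ℕ) : ℂ) * (z : ℂ)))
      ((∑' m : ℕ+, if (((m : ℕ) : ℕ) : ZMod M) = a then T m else 0) +
        ∑' m : ℕ+, if (((m : ℕ) : ℕ) : ZMod M) = -a then T m else 0) := by
    have hfun : (fun N : ℕ+ => ((genCoeff M a (N : ℕ) : ℤ) : ℂ) *
        cexp (2 * (Real.pi : ℂ) * Complex.I * ((N : ℕ) : ℂ) * (z : ℂ))) = fun b : ℕ+ =>
        (∑ d ∈ (b : ℕ).divisors, if (((b : ℕ) / d : ℕ) : ZMod M) = a then (d : ℂ) ^ 3 else 0)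
            * q ^ (b : ℕ) +
          (∑ d ∈ (b : ℕ).divisors, if (((b : ℕ) / d : ℕ) : ZMod M) = -a then (d : ℂ) ^ 3 else 0)
            * q ^ (b : ℕ) := by
      funext N
      have hexp : cexp (2 * (Real.pi : ℂ) * Complex.I * ((N : ℕ) : ℂ) * (z : ℂ)) =
          q ^ (N : ℕ) := by
        rw [hq_def, ← Complex.exp_nat_mul]
        congr 1
        ring
      rw [hexp, ← add_mul]
      congr 1
      unfold genCoeff
      rw [← Finset.sum_add_distrib]
      push_cast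
      refine Finset.sum_congr rfl fun d _ => ?_
      split_ifs <;> simp
    rw [hfun]
    exact hAB
  have := (hasSum_pnat_iff (f := fun n : ℕ => ((genCoeff M a n : ℤ) : ℂ) *
      cexp (2 * (Real.pi : ℂ) * Complex.I * (n : ℂ) * (z : ℂ)))).mp hfin
  simpa [genCoeff_zero] using this

end Fermat.Agent.H87.ES1
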